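import Fermat.Agent.S17.H.WIP.Mid

/-! # S17/H blueprint, block X1 (cross fibres) + shared nodes (good pencils, multiplicities)
Statements only (never import this file from a proof file). -/

set_option autoImplicit false

noncomputable section

open scoped Classical

namespace Fermat.Agent.S17.H.WIP

open Fermat.Agent.S17.H Polynomial

variable (𝔳 : AbsFam) {A : Type} [CommRing A] [Algebra Qb A] (C : WCurve A)

/-! ## Shared nodes -/

/-- the coefficient of weight `n` of `f`. -/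
def cw (n : ℕ) (f : A) : Qb :=
  ∑ i ∈ (C.b.repr f).support.filter (fun i => C.ρ i = n), C.b.repr f i

theorem cw_mul {n n' : ℕ} {f h : A} (hf : f ∈ C.V n) (hh : h ∈ C.V n') :
    cw C (n + n') (f * h) = cw C n f * cw C n' h := sorry

theorem cw_add (n : ℕ) (f h : A) : cw C n (f + h) = cw C n f + cw C n h := sorry

theorem cw_smul (n : ℕ) (r : Qb) (f : A) : cw C n (r • f) = r * cw C n f := sorry

theorem cw_eq_zero_of_mem {n n' : ℕ} (h : n' < n) {f : A} (hf : f ∈ C.V n') : cw C n f = 0 := sorry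

theorem cw_eq_lc {f : A} (hf : f ≠ 0) : cw C (C.wt f) f = C.lc f := sorry

/-- the top coefficient of the norm, polynomial version. -/
theorem coeff_Nm_top {n : ℕ} {f : A} (hf : f ∈ C.V n) :
    (Nm C f).coeff n = cw C n f ^ C.d ∨ (Nm C f).coeff n = - cw C n f ^ C.d := sorry

theorem natDegree_Nm_le {n : ℕ} {f : A} (hf : f ∈ C.V n) : (Nm C f).natDegree ≤ n := sorry

/-- the fibre multiset. -/
def Fib (β : Qb) : Multiset (Pt A) := (exists_fibre C β).choose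

theorem card_Fib (β : Qb) : (Fib C β).card = C.d := sorry

theorem mem_Fib {β : Qb} {Q : Pt A} : Q ∈ Fib C β ↔ Q C.t = β := sorry

theorem eval_Nm (β : Qb) (f : A) : (Nm C f).eval β = ((Fib C β).map fun Q => Q f).prod := sorry

/-- the maximal ideal of a point. -/
def mI (P : Pt A) : Ideal A := RingHom.ker (P : A →+* Qb)

/-- NP5: the multiplicity of `P` in its fibre is the order of `t - t(P)` at `P`. -/
theorem count_Fib [IsDedekindDomain A] (P : Pt A) :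
    C.t - algebraMap Qb A (P C.t) ∈ mI P ^ ((Fib C (P C.t)).count P) ∧
      C.t - algebraMap Qb A (P C.t) ∉ mI P ^ ((Fib C (P C.t)).count P + 1) := sorry

/-- GP: good pencils. -/
theorem exists_good_pencil [IsDedekindDomain A] (S : Finset (Pt A)) {m : ℕ}
    (hm : 2 * S.card + 2 * C.g + 2 ≤ m) :
    ∃ a c : A, C.wt a = m - 1 ∧ C.wt c = m ∧ (∀ Q ∈ S, Q a = 1) ∧
      (∀ P ∈ S, ∀ Q ∈ S, P ≠ Q → P c ≠ Q c) ∧ ∀ Q ∈ S, Q c • a - c ∉ mI Q ^ 2 := sorry

/-- pencil sections are dominated by `w2`. -/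
theorem av_pencil_le (m : ℕ) {a c : A} (ha : a ∈ C.V m) (hc : c ∈ C.V m) :
    ∃ γ : MConst, ∀ (v : Pl) (P Q : Pt A),
      𝔳.av v (P a * Q c - P c * Q a) ≤ Real.exp (γ.c v) * C.w2 𝔳 m v P Q := sorry

/-! ## BH2: families of polynomials of bidegree `≤ (D,D)` without common zero on `ℙ¹ × ℙ¹` -/

/-- evaluation of a coefficient matrix. -/
def ev2 {D : ℕ} (g : Fin (D + 1) → Fin (D + 1) → Qb) (α β : Qb) : Qb :=
  ∑ i, ∑ j, g i j * α ^ (i : ℕ) * β ^ (j : ℕ)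

theorem biproj_lower (D : ℕ) {ι : Type} (g : ι → Fin (D + 1) → Fin (D + 1) → Qb)
    (h1 : ∀ α β, ∃ k, ev2 (g k) α β ≠ 0)
    (h2 : ∀ β, ∃ k, ∑ j, g k (Fin.last D) j * β ^ (j : ℕ) ≠ 0)
    (h3 : ∀ α, ∃ k, ∑ i, g k i (Fin.last D) * α ^ (i : ℕ) ≠ 0)
    (h4 : ∃ k, g k (Fin.last D) (Fin.last D) ≠ 0) :
    ∃ (S : Finset ι) (γ : MConst), ∀ (v : Pl) (α β : Qb), ∃ k ∈ S,
      (mx 𝔳 v α * mx 𝔳 v β) ^ D ≤ Real.exp (γ.c v) * 𝔳.av v (ev2 (g k) α β) := sorry

/-- a polynomial function of two variables which is symmetric off the diagonal has a symmetric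
coefficient matrix; in particular the degrees in the two variables agree. -/
theorem exists_ev2_of_symm (D D' : ℕ) (g' : Fin (D + 1) → Fin (D' + 1) → Qb)
    (hs : ∀ α β : Qb, α ≠ β →
      ∑ i, ∑ j, g' i j * α ^ (i : ℕ) * β ^ (j : ℕ) = ∑ i, ∑ j, g' i j * β ^ (i : ℕ) * α ^ (j : ℕ)) :
    ∃ g : Fin (D + 1) → Fin (D + 1) → Qb, (∀ i j, g i j = g j i) ∧
      ∀ α β : Qb, ev2 g α β = ∑ i, ∑ j, g' i j * α ^ (i : ℕ) * β ^ (j : ℕ) := sorry

/-! ## The construction of `η` -/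

/-- the matrix `a M_c(T') - c M_a(T')` over `A[T']`. -/
def Ymat (a c : A) : Matrix (Fin C.d) (Fin C.d) A[X] := fun i j =>
  Polynomial.C a * (mulMat C c i j).map (algebraMap Qb A) -
    Polynomial.C c * (mulMat C a i j).map (algebraMap Qb A)

def xi (a c : A) : A[X] := (Ymat C a c).det

/-- Cayley-Hamilton. -/
theorem xi_eval_t (a c : A) : (xi C a c).eval C.t = 0 := sorry

def eta (a c : A) : A[X] := xi C a c /ₘ (X - Polynomial.C C.t)

theorem xi_eq (a c : A) : xi C a c = (X - Polynomial.C C.t) * eta C a c := sorry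

/-- `η_β`. -/
def etaAt (a c : A) (β : Qb) : A := (eta C a c).eval (algebraMap Qb A β)

/-- `ξ_β = ∏_{Q | β} (c(Q) a - a(Q) c)`. -/
theorem xi_eval (a c : A) (β : Qb) : (xi C a c).eval (algebraMap Qb A β) =
    ((Fib C β).map fun Q => Q c • a - Q a • c).prod := sorry

theorem etaAt_mul (a c : A) (β : Qb) : (algebraMap Qb A β - C.t) * etaAt C a c β =
    ((Fib C β).map fun Q => Q c • a - Q a • c).prod := sorry

/-- the value `G_{a,c}(α,β)`. -/
def Gv (a c : A) (α β : Qb) : Qb := (Nm C (etaAt C a c β)).eval α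

theorem Gv_eq_prod (a c : A) (α β : Qb) :
    Gv C a c α β = ((Fib C α).map fun P => P (etaAt C a c β)).prod := sorry

/-- product formula (all `α, β`, fibres with multiplicities). -/
theorem sub_pow_mul_Gv (a c : A) (α β : Qb) : (β - α) ^ C.d * Gv C a c α β =
    ((Fib C α).map fun P => ((Fib C β).map fun Q => P a * Q c - P c * Q a).prod).prod := sorry

theorem Gv_symm (a c : A) {α β : Qb} (h : α ≠ β) : Gv C a c α β = Gv C a c β α := sorry

/-- weights. -/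
theorem etaAt_mem_V {m : ℕ} (hm : 1 ≤ m) {a c : A} (ha : a ∈ C.V (m - 1)) (hc : c ∈ C.V m) (β : Qb) :
    etaAt C a c β ∈ C.V (C.d * (m - 1)) := sorry

theorem cw_etaAt {m : ℕ} (hm : 1 ≤ m) {a c : A} (ha : a ∈ C.V (m - 1)) (hc : c ∈ C.V m) (β : Qb) :
    cw C (C.d * (m - 1)) (etaAt C a c β) = (Nm C a).eval β * cw C m c ^ C.d ∨
      cw C (C.d * (m - 1)) (etaAt C a c β) = - ((Nm C a).eval β * cw C m c ^ C.d) := sorry

/-- polynomiality in `β` (some degree `D'`). -/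
theorem exists_coeffs_Gv {m : ℕ} (hm : 1 ≤ m) {a c : A} (ha : a ∈ C.V (m - 1)) (hc : c ∈ C.V m) :
    ∃ (D' : ℕ) (g' : Fin (C.d * (m - 1) + 1) → Fin (D' + 1) → Qb), ∀ α β : Qb,
      Gv C a c α β = ∑ i, ∑ j, g' i j * α ^ (i : ℕ) * β ^ (j : ℕ) := sorry

/-- the coefficient matrix of `G_{a,c}`: bidegree `≤ (D,D)`, symmetric. -/
theorem exists_ev2_Gv {m : ℕ} (hm : 1 ≤ m) {a c : A} (ha : a ∈ C.V (m - 1)) (hc : c ∈ C.V m) :
    ∃ g : Fin (C.d * (m - 1) + 1) → Fin (C.d * (m - 1) + 1) → Qb, (∀ i j, g i j = g j i) ∧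
      ∀ α β : Qb, ev2 g α β = Gv C a c α β := sorry

/-! ## Non vanishing -/

/-- finite points. -/
theorem Gv_ne_zero [IsDedekindDomain A] (α β : Qb) {a c : A}
    (h1 : ∀ Q : Pt A, Q C.t = α ∨ Q C.t = β → Q a = 1)
    (h2 : ∀ P Q : Pt A, P C.t = α ∨ P C.t = β → Q C.t = α ∨ Q C.t = β → P ≠ Q → P c ≠ Q c)
    (h3 : ∀ Q : Pt A, Q C.t = α ∨ Q C.t = β → Q c • a - c ∉ mI Q ^ 2) :
    Gv C a c α β ≠ 0 := sorry

/-- points `(∞, β)`. -/
theorem coeff_top_Gv {m : ℕ} (hm : 1 ≤ m) {a c : A} (ha : a ∈ C.V (m - 1)) (hc : c ∈ C.V m) (β : Qb) :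
    (Nm C (etaAt C a c β)).coeff (C.d * (m - 1)) = ((Nm C a).eval β * cw C m c ^ C.d) ^ C.d ∨
    (Nm C (etaAt C a c β)).coeff (C.d * (m - 1)) = - ((Nm C a).eval β * cw C m c ^ C.d) ^ C.d :=
  sorry

/-- the family of all pencils has no common zero on `ℙ¹ × ℙ¹`: the four hypotheses of
`biproj_lower` for `ι = {(a,c) | a ∈ V (m-1), c ∈ V m}` and the matrices of `exists_ev2_Gv`. -/
theorem exists_family [IsDedekindDomain A] {m : ℕ} (hm : 4 * C.d + 2 * C.g + 2 ≤ m) :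
    ∃ (S : Finset (A × A)) (γ : MConst), (∀ p ∈ S, p.1 ∈ C.V (m - 1) ∧ p.2 ∈ C.V m) ∧
      ∀ (v : Pl) (α β : Qb), ∃ p ∈ S,
        (mx 𝔳 v α * mx 𝔳 v β) ^ (C.d * (m - 1)) ≤
          Real.exp (γ.c v) * 𝔳.av v (Gv C p.1 p.2 α β) := sorry

end Fermat.Agent.S17.H.WIP
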